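import Mathlib
import Fermat.Agent.LT.T5.Spec
import Fermat.Agent.LT.T2.H437.USTop
import Fermat.Agent.LT.T2.H187.LevelNhds
import Fermat.Agent.LT.T5.H599.Diag

/-!
# Row LT, tower T7, asset T7.S0 `ConvTestC` (helper872): the convolution of two test functions
# of T5 is a test function

OFF-MAIN.  Complete proofs, nothing assumed.

    isTestFn_conv872 : 𝔫 ≠ ⊥ → μ.IsHaarMeasure → IsTestFn 𝔫 τ φ₁ → IsTestFn 𝔫 τ φ₂ →
      IsTestFn 𝔫 τ (conv μ φ₁ φ₂)

(`T5/Spec.lean` v4, sha256 f2d97e70.)  This is the first component of `T7.IsAdm5` for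
`φ = conv μ φ₁ φ₂` (`T7/Matching.lean`), i.e. the hypothesis `IsTestFn` of `T5.GeomUnfold` and of
`T7.GeomC` for the products of two Eisenstein-killing test functions.

## Proof

* continuity, compact support (`supp ⊆ supp φ₁ · supp φ₂`), bi-invariance (left invariance of
  `μ`): elementary.
* `IsSmoothAtInf (conv μ φ₁ φ₂)`: `t ↦ ∫ φ₁(y) φ₂(y⁻¹ g h(t)) dμ(y)`.  For `y` in the open
  neighbourhood `V(y₀) = {y : y⁻¹ y₀ ∈ interior (nbInf ∩ FinLevel 𝔫)}` of `y₀`
  (`𝔫 ≠ 0`: `T2.H187.levelNhdsC187`) write `y⁻¹ y₀ = u · A(X(y))`, `u ∈ U(𝔫)`, `A` the chart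
  `1 + ρ(X)` at infinity of helper437 with the EXPLICIT measurable coordinates `X(y)`
  (`rhoInv872`).  Left invariance of `φ₂` under `U(𝔫)` gives
  `φ₂(y⁻¹ g h(t)) = φ₂(g' · Y(X(y), t))`, `g' = y₀⁻¹ g`, `Y(X, t) = g'⁻¹ A(X) g' h(t)` a smooth
  family supported at infinity, so `Φ(X, t) = φ₂(g' Y(X,t))` is smooth by `IsSmoothAtInf φ₂`.
  `contDiff_paramIntegral872` (Mathlib only: a parametric integral `∫ Φ(σ(y), t) dν(y)` of a
  smooth `Φ` against a finite measure, `σ` measurable and bounded, is smooth -- from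
  `contDiffOn_convolution_right_with_param` for the push-forward measure) makes
  `t ↦ ∫_{S} φ₁(y) φ₂(y⁻¹ g h(t)) dμ(y)` smooth for every measurable `S ⊆ V(y₀) ∩ supp φ₁`;
  `IsCompact.induction_on` glues finitely many charts.
  (FALSE for `𝔫 = 0`: no local constancy in the finite variables.)
-/

set_option autoImplicit false
set_option linter.unusedSectionVars false
set_option linter.style.haveILetI false

open IsDedekindDomain NumberField MeasureTheory Set Function
open scoped ContDiff Convolution Topology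
open Fermat.Agent.LT.H556.A0 Fermat.Agent.LT.T5
open Fermat.Agent.LT.T1.H724 Fermat.Agent.LT.T2.H724 Fermat.Agent.LT.T2.H437

noncomputable section

namespace Fermat.Agent.LT.T7.H872

attribute [local instance] Fermat.Agent.LT.T5.instMeasurableSpaceG

/-! ## 1. Parametric integrals (Mathlib only) -/

/-- **Parametric integrals of smooth functions.**  If `Φ` is smooth on `E × P`, `ν` is a finite
measure and `σ` is a measurable map with (almost everywhere) bounded values, then
`p ↦ ∫ Φ (σ y, p) dν(y)` is smooth. -/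
theorem contDiff_paramIntegral872 {Y : Type*} [MeasurableSpace Y] (ν : Measure Y)
    [IsFiniteMeasure ν]
    {E P : Type*} [NormedAddCommGroup E] [NormedSpace ℝ E] [FiniteDimensional ℝ E]
    [MeasurableSpace E] [BorelSpace E]
    [NormedAddCommGroup P] [NormedSpace ℝ P]
    (Φ : E × P → ℂ) (hΦ : ContDiff ℝ ∞ Φ) (σ : Y → E) (hσ : Measurable σ) (R : ℝ)
    (hR : ∀ᵐ y ∂ν, ‖σ y‖ ≤ R) :
    ContDiff ℝ ∞ (fun p : P => ∫ y, Φ (σ y, p) ∂ν) := by
  classical
  set R' : ℝ := max R 0 + 1 with hR'def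
  have hR'pos : 0 < R' := by positivity
  have hRR' : R ≤ R' := by
    have := le_max_left R 0
    linarith
  let χ : ContDiffBump (0 : E) := ⟨R', R' + 1, hR'pos, by linarith⟩
  let lam : Measure E := Measure.map σ ν
  have hlam : IsFiniteMeasure lam := Measure.isFiniteMeasure_map ν σ
  let g : P → E → ℂ := fun p x => ((χ (-x) : ℝ) : ℂ) * Φ (-x, p)
  let f : E → ℂ := fun _ => 1
  let L : ℂ →L[ℝ] ℂ →L[ℝ] ℂ := ContinuousLinearMap.mul ℝ ℂ
  have hgs : ∀ p, ∀ x, p ∈ (univ : Set P) → x ∉ Metric.closedBall (0 : E) (R' + 1) →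
      g p x = 0 := by
    intro p x _ hx
    have h1 : χ (-x) = 0 := by
      apply χ.zero_of_le_dist
      rw [Metric.mem_closedBall, not_le, dist_zero_right] at hx
      rw [dist_zero_right, norm_neg]
      exact hx.le
    simp only [g, h1, Complex.ofReal_zero, zero_mul]
  have hf : LocallyIntegrable f lam := (integrable_const (1 : ℂ)).locallyIntegrable
  have hχ : ContDiff ℝ ∞ (fun x : E => χ x) := χ.contDiff
  have hg : ContDiffOn ℝ ∞ (↿g) ((univ : Set P) ×ˢ (univ : Set E)) := by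
    apply ContDiff.contDiffOn
    have h1 : ContDiff ℝ ∞ (fun q : P × E => ((χ (-q.2) : ℝ) : ℂ)) :=
      Complex.ofRealCLM.contDiff.comp (hχ.comp contDiff_snd.neg)
    have h2 : ContDiff ℝ ∞ (fun q : P × E => Φ (-q.2, q.1)) :=
      hΦ.comp ((contDiff_snd.neg).prodMk contDiff_fst)
    exact h1.mul h2
  have key := contDiffOn_convolution_right_with_param (μ := lam) (f := f) (n := ⊤) L
    (g := g) (s := univ) (k := Metric.closedBall (0 : E) (R' + 1)) isOpen_univ
    (isCompact_closedBall _ _) hgs hf hg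
  rw [univ_prod_univ, contDiffOn_univ] at key
  have h2 : ContDiff ℝ ∞ (fun p : P => (p, (0 : E))) := contDiff_id.prodMk contDiff_const
  have h3 := key.comp h2
  have e : (fun p : P => ∫ y, Φ (σ y, p) ∂ν)
      = (fun q : P × E => (f ⋆[L, lam] g q.1) q.2) ∘ fun p : P => (p, (0 : E)) := by
    funext p
    simp only [Function.comp_apply]
    rw [convolution_def]
    have hfun : (fun t : E => L (f t) (g p (0 - t)))
        = fun t : E => ((χ t : ℝ) : ℂ) * Φ (t, p) := by
      funext t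
      simp [L, f, g]
    rw [hfun]
    have hm : AEStronglyMeasurable (fun t : E => ((χ t : ℝ) : ℂ) * Φ (t, p))
        (Measure.map σ ν) := by
      apply Continuous.aestronglyMeasurable
      have c1 : Continuous (fun t : E => ((χ t : ℝ) : ℂ)) :=
        Complex.continuous_ofReal.comp hχ.continuous
      have c2 : Continuous (fun t : E => Φ (t, p)) :=
        hΦ.continuous.comp (by fun_prop)
      exact c1.mul c2
    rw [integral_map hσ.aemeasurable hm]
    refine integral_congr_ae ?_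
    filter_upwards [hR] with y hy
    have h1 : χ (σ y) = 1 := by
      apply χ.one_of_mem_closedBall
      rw [Metric.mem_closedBall, dist_zero_right]
      exact hy.trans hRR'
    simp [h1]
  rw [e]
  exact h3

/-! ## 2. The inverse of the one-dimensional chart of helper437 -/

/-- The inverse of `rho437` on `(-1/8, 1/8)`. -/
def rhoInv872 (y : ℝ) : ℝ := 8 * y / Real.sqrt (1 - 64 * y ^ 2)

theorem measurable_rhoInv872 : Measurable rhoInv872 := by
  unfold rhoInv872
  exact (measurable_const.mul measurable_id).div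
    (Real.continuous_sqrt.measurable.comp
      (measurable_const.sub (measurable_const.mul (measurable_id.pow_const 2))))

theorem rho_rhoInv872 {y : ℝ} (hy : |y| < 1 / 8) : rho437 (rhoInv872 y) = y := by
  have hy' := abs_lt.mp hy
  have hpos : 0 < 1 - 64 * y ^ 2 := by nlinarith
  set s := Real.sqrt (1 - 64 * y ^ 2) with hs
  have hs0 : 0 < s := Real.sqrt_pos.mpr hpos
  have hs2 : s ^ 2 = 1 - 64 * y ^ 2 := Real.sq_sqrt hpos.le
  have h1 : 1 + (8 * y / s) ^ 2 = (1 / s) ^ 2 := by
    field_simp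
    nlinarith
  unfold rho437 rhoInv872
  rw [← hs, h1, Real.sqrt_sq (by positivity)]
  field_simp

theorem abs_rhoInv_le872 {y : ℝ} (hy : |y| ≤ 1 / 16) : |rhoInv872 y| ≤ 1 := by
  have hy' := abs_le.mp hy
  have hpos : (1 / 2 : ℝ) ^ 2 ≤ 1 - 64 * y ^ 2 := by nlinarith
  have hs : (1 / 2 : ℝ) ≤ Real.sqrt (1 - 64 * y ^ 2) := Real.le_sqrt_of_sq_le hpos
  unfold rhoInv872
  rw [abs_div, abs_of_pos (by linarith : 0 < Real.sqrt (1 - 64 * y ^ 2)),
    div_le_one (by linarith)]
  rw [abs_mul, abs_of_pos (by norm_num : (0 : ℝ) < 8)]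
  linarith

/-! ## 3. Explicit measurable chart coordinates at infinity -/

variable {K : Type} [Field K] [NumberField K]

theorem borelSpaceG872 (K : Type) [Field K] [NumberField K] : BorelSpace (G K) := ⟨rfl⟩

/-- The explicit chart coordinates of an element near `1` at infinity. -/
def coordX872 (x : G K) : MatCoord437 K := fun w i j b =>
  rhoInv872 (if b then ((infComp w x - 1) i j).im else ((infComp w x - 1) i j).re)

theorem abs_coord_le872 {x : G K} (hx : x ∈ nbInf437 K) (w : InfinitePlace K) (i j : Fin 2)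
    (b : Bool) :
    |if b then ((infComp w x - 1) i j).im else ((infComp w x - 1) i j).re| ≤ 1 / 16 := by
  have h := (hx w i j).le
  by_cases hb : b = true
  · simp only [hb, if_true]
    exact (Complex.abs_im_le_norm _).trans h
  · simp only [hb, Bool.false_eq_true, if_false]
    exact (Complex.abs_re_le_norm _).trans h

theorem abs_coordX_le872 {x : G K} (hx : x ∈ nbInf437 K) (w : InfinitePlace K) (i j : Fin 2)
    (b : Bool) : |coordX872 x w i j b| ≤ 1 :=
  abs_rhoInv_le872 (abs_coord_le872 hx w i j b)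

/-- An element of the neighbourhood `nbInf437` has its infinite part in the chart, with the
explicit coordinates `coordX872`. -/
theorem pInf_eq_chart872 {x : G K} (hx : x ∈ nbInf437 K) :
    pInf437 x = chartG437 (coordX872 x) := by
  have hXe : ∀ (w : InfinitePlace K) (i j : Fin 2) (b : Bool), rho437 (coordX872 x w i j b)
      = if b then ((infComp w x - 1) i j).im else ((infComp w x - 1) i j).re := by
    intro w i j b
    apply rho_rhoInv872
    have := abs_coord_le872 hx w i j b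
    linarith
  refine gK_ext437 (fun w => ?_) (fun v => ?_)
  · rw [cGL_pInf437]
    apply Units.ext
    rw [cGL_val437, cGL_val437, cInf_chartG437]
    ext i j
    have hz : (infComp w x - 1) i j = InfinitePlace.Completion.extensionEmbedding w
        (cInf724 w x i j - (1 : Matrix (Fin 2) (Fin 2) w.Completion) i j) := by
      rw [Matrix.sub_apply, map_sub, infComp_eq_cInf724, Matrix.map_apply]
      congr 1
      rw [Matrix.one_apply, Matrix.one_apply]
      split_ifs
      · exact (map_one _).symm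
      · exact (map_zero _).symm
    have h1 := hXe w i j false
    have h2 := hXe w i j true
    simp only [Bool.false_eq_true, if_false, if_true] at h1 h2
    simp only [chartMat437, Matrix.add_apply, Matrix.of_apply]
    rw [h1, h2, hz, kap_coord437]
    exact (add_sub_cancel _ _).symm
  · rw [fGL_pInf437, fGL_chartG437]

theorem measurable_coordX872 (y₀ : G K) :
    Measurable (fun y : G K => coordX872 (y⁻¹ * y₀)) := by
  haveI := borelSpaceG872 K
  refine measurable_pi_iff.mpr fun w => measurable_pi_iff.mpr fun i =>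
    measurable_pi_iff.mpr fun j => measurable_pi_iff.mpr fun b => ?_
  have hc : Continuous (fun y : G K => (infComp w (y⁻¹ * y₀) - 1) i j) := by
    simp only [Matrix.sub_apply]
    exact ((continuous_infComp437 w i j).comp (continuous_inv.mul continuous_const)).sub
      continuous_const
  unfold coordX872
  apply measurable_rhoInv872.comp
  cases b
  · simp only [Bool.false_eq_true, if_false]
    exact Complex.measurable_re.comp hc.measurable
  · simp only [if_true]
    exact Complex.measurable_im.comp hc.measurable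

/-- `x = u · P∞ x` with `u = (P∞ x)⁻¹ x` (the two parts commute). -/
theorem pInf_comm872 (x : G K) : (pInf437 x)⁻¹ * x * pInf437 x = x := by
  refine gK_ext437 (fun w => ?_) (fun v => ?_)
  · simp only [map_mul, map_inv, cGL_pInf437]
    group
  · simp only [map_mul, map_inv, fGL_pInf437]
    group

/-! ## 4. The smooth family of a chart -/

section Family

variable {n : ℕ}

/-- The number of parameters `(X, t)`. -/
def mPar872 (K : Type) [Field K] [NumberField K] (n : ℕ) : ℕ :=
  Fintype.card ((InfinitePlace K × Fin 2 × Fin 2 × Bool) ⊕ Fin n)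

/-- The enumeration of the parameters. -/
def ePar872 (K : Type) [Field K] [NumberField K] (n : ℕ) :
    ((InfinitePlace K × Fin 2 × Fin 2 × Bool) ⊕ Fin n) ≃ Fin (mPar872 K n) :=
  Fintype.equivFin _

/-- The matrix coordinates of a parameter. -/
def parX872 (q : Fin (mPar872 K n) → ℝ) : MatCoord437 K :=
  fun w i j b => q (ePar872 K n (Sum.inl (w, i, j, b)))

/-- The time coordinates of a parameter. -/
def parT872 (q : Fin (mPar872 K n) → ℝ) : Fin n → ℝ :=
  fun k => q (ePar872 K n (Sum.inr k))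

/-- The parameter with the coordinates `(X, t)`. -/
def join872 (X : MatCoord437 K) (t : Fin n → ℝ) : Fin (mPar872 K n) → ℝ := fun k =>
  match (ePar872 K n).symm k with
  | Sum.inl (w, i, j, b) => X w i j b
  | Sum.inr k' => t k'

theorem parX_join872 (X : MatCoord437 K) (t : Fin n → ℝ) : parX872 (join872 X t) = X := by
  funext w i j b
  simp [parX872, join872]

theorem parT_join872 (X : MatCoord437 K) (t : Fin n → ℝ) : parT872 (join872 X t) = t := by
  funext k
  simp [parT872, join872]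

theorem contDiff_parT872 :
    ContDiff ℝ ∞ (fun q : Fin (mPar872 K n) → ℝ => (parT872 q : Fin n → ℝ)) :=
  contDiff_pi.mpr fun _ => contDiff_apply ℝ ℝ _

theorem contDiff_join872 :
    ContDiff ℝ ∞ (fun p : MatCoord437 K × (Fin n → ℝ) =>
      (join872 p.1 p.2 : Fin (mPar872 K n) → ℝ)) := by
  refine contDiff_pi.mpr fun k => ?_
  unfold join872
  rcases h : (ePar872 K n).symm k with ⟨w, i, j, b⟩ | k'
  · exact (contDiff_apply ℝ ℝ b).comp ((contDiff_apply ℝ (Bool → ℝ) j).comp
      ((contDiff_apply ℝ (Fin 2 → Bool → ℝ) i).comp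
        ((contDiff_apply ℝ (Fin 2 → Fin 2 → Bool → ℝ) w).comp contDiff_fst)))
  · exact (contDiff_apply ℝ ℝ k').comp contDiff_snd

/-- The family `Y(X, t) = g'⁻¹ A(X) g' h(t)`. -/
def fam872 (g' : G K) (h : (Fin n → ℝ) → G K) (q : Fin (mPar872 K n) → ℝ) : G K :=
  g'⁻¹ * chartG437 (parX872 q) * g' * h (parT872 q)

theorem smooth_chart872 (w : InfinitePlace K) :
    SmoothMat437 (fun q : Fin (mPar872 K n) → ℝ => infComp w (chartG437 (parX872 q))) := by
  intro i j
  simp only [infComp_chartG437, chartC437, Matrix.add_apply, Matrix.of_apply, parX872]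
  exact contDiff_const.add (contDiff_kapC437 w
    (contDiff_rho437.comp (contDiff_apply ℝ ℝ _)) (contDiff_rho437.comp (contDiff_apply ℝ ℝ _)))

theorem smooth_fam872 (g' : G K) {h : (Fin n → ℝ) → G K}
    (hh : ∀ (w : InfinitePlace K) (i j : Fin 2), ContDiff ℝ ∞ (fun t => infComp w (h t) i j))
    (w : InfinitePlace K) :
    SmoothMat437 (fun q : Fin (mPar872 K n) → ℝ => infComp w (fam872 g' h q)) := by
  have hH : SmoothMat437 (fun q : Fin (mPar872 K n) → ℝ => infComp w (h (parT872 q))) :=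
    fun i j => (hh w i j).comp contDiff_parT872
  have e : (fun q : Fin (mPar872 K n) → ℝ => infComp w (fam872 g' h q))
      = fun q => infComp w g'⁻¹ * infComp w (chartG437 (parX872 q)) * infComp w g' *
          infComp w (h (parT872 q)) := by
    funext q
    simp only [fam872, infComp_mul437]
  rw [e]
  exact (((smoothMat_const437 _).mul (smooth_chart872 w)).mul (smoothMat_const437 _)).mul hH

theorem trivAtFin_fam872 (g' : G K) {h : (Fin n → ℝ) → G K}
    (hfin : ∀ (t : Fin n → ℝ) (v : HeightOneSpectrum (𝓞 K)), TrivAtFin v (h t))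
    (q : Fin (mPar872 K n) → ℝ) (v : HeightOneSpectrum (𝓞 K)) :
    TrivAtFin v (fam872 g' h q) := by
  have h1 : fGL437 v (fam872 g' h q) = 1 := by
    unfold fam872
    simp only [map_mul, map_inv, fGL_chartG437, fGL_eq_one_of437 (hfin _ v), mul_one,
      inv_mul_cancel]
  have := congrArg Units.val h1
  rwa [fGL_val437, Units.val_one] at this

/-- The function of the chart is smooth. -/
theorem contDiff_chartFn872 {φ : G K → ℂ} (hφ : IsSmoothAtInf φ) (g' : G K)
    {h : (Fin n → ℝ) → G K}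
    (hfin : ∀ (t : Fin n → ℝ) (v : HeightOneSpectrum (𝓞 K)), TrivAtFin v (h t))
    (hh : ∀ (w : InfinitePlace K) (i j : Fin 2), ContDiff ℝ ∞ (fun t => infComp w (h t) i j)) :
    ContDiff ℝ ∞ (fun q : Fin (mPar872 K n) → ℝ => φ (g' * fam872 g' h q)) :=
  hφ (mPar872 K n) (fam872 g' h) (fun q v => trivAtFin_fam872 g' hfin q v)
    (fun w i j => smooth_fam872 g' hh w i j) g'

/-- **The chart identity.**  For `y` with `y⁻¹ y₀` in the chart neighbourhood:
`φ(y⁻¹ g h(t)) = φ(g' · Y(X(y), t))`, `g' = y₀⁻¹ g`. -/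
theorem chart_identity872 {𝔫 : Ideal (𝓞 K)} {φ : G K → ℂ}
    (hL : ∀ u : G K, InLevelGroup 𝔫 u → ∀ g : G K, φ (u * g) = φ g) (y₀ g y : G K)
    (h : (Fin n → ℝ) → G K) (t : Fin n → ℝ) (hx1 : y⁻¹ * y₀ ∈ nbInf437 K)
    (hx2 : FinLevel437 𝔫 (y⁻¹ * y₀)) :
    φ (y⁻¹ * (g * h t))
      = φ ((y₀⁻¹ * g) * fam872 (y₀⁻¹ * g) h (join872 (coordX872 (y⁻¹ * y₀)) t)) := by
  set x := y⁻¹ * y₀ with hx
  have hu := inLevelGroup_finPart437 hx2
  have e1 : y⁻¹ * (g * h t) = ((pInf437 x)⁻¹ * x) * (pInf437 x * ((y₀⁻¹ * g) * h t)) := by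
    have hc := pInf_comm872 x
    calc y⁻¹ * (g * h t) = x * ((y₀⁻¹ * g) * h t) := by
          rw [hx]; group
      _ = ((pInf437 x)⁻¹ * x * pInf437 x) * ((y₀⁻¹ * g) * h t) := by rw [hc]
      _ = ((pInf437 x)⁻¹ * x) * (pInf437 x * ((y₀⁻¹ * g) * h t)) := by group
  rw [e1, hL _ hu]
  congr 1
  unfold fam872
  rw [parX_join872, parT_join872, ← pInf_eq_chart872 hx1]
  group

end Family

/-! ## 5. Smoothness of the integral over a measurable subset of a chart -/

section Local

variable {n : ℕ}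

/-- The chart neighbourhood of `y₀`. -/
def chartNb872 (𝔫 : Ideal (𝓞 K)) (y₀ : G K) : Set (G K) :=
  {y | y⁻¹ * y₀ ∈ interior (nbInf437 K ∩ {x : G K | FinLevel437 𝔫 x})}

theorem isOpen_chartNb872 (𝔫 : Ideal (𝓞 K)) (y₀ : G K) : IsOpen (chartNb872 𝔫 y₀) :=
  isOpen_interior.preimage (continuous_inv.mul continuous_const)

theorem mem_chartNb872 {𝔫 : Ideal (𝓞 K)} (h𝔫 : 𝔫 ≠ ⊥) (y₀ : G K) : y₀ ∈ chartNb872 𝔫 y₀ := by
  show y₀⁻¹ * y₀ ∈ interior (nbInf437 K ∩ {x : G K | FinLevel437 𝔫 x})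
  rw [inv_mul_cancel]
  apply mem_interior_iff_mem_nhds.mpr
  exact Filter.inter_mem (isOpen_nbInf437.mem_nhds one_mem_nbInf437)
    (Fermat.Agent.LT.T2.H187.levelNhdsC187 K 𝔫 h𝔫)

theorem chartNb_sub872 {𝔫 : Ideal (𝓞 K)} {y₀ y : G K} (hy : y ∈ chartNb872 𝔫 y₀) :
    y⁻¹ * y₀ ∈ nbInf437 K ∧ FinLevel437 𝔫 (y⁻¹ * y₀) := by
  have hy' : y⁻¹ * y₀ ∈ interior (nbInf437 K ∩ {x : G K | FinLevel437 𝔫 x}) := hy
  have h2 : y⁻¹ * y₀ ∈ nbInf437 K ∩ {x : G K | FinLevel437 𝔫 x} := interior_subset hy'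
  exact ⟨h2.1, h2.2⟩

theorem contDiff_local872 {μ : Measure (G K)} {𝔫 : Ideal (𝓞 K)} {φ₁ φ₂ : G K → ℂ}
    (h₁c : Continuous φ₁) (h₁b : ∃ C : ℝ, ∀ y, ‖φ₁ y‖ ≤ C)
    (h₂s : IsSmoothAtInf φ₂)
    (h₂L : ∀ u : G K, InLevelGroup 𝔫 u → ∀ g : G K, φ₂ (u * g) = φ₂ g)
    (y₀ g : G K) (h : (Fin n → ℝ) → G K)
    (hfin : ∀ (t : Fin n → ℝ) (v : HeightOneSpectrum (𝓞 K)), TrivAtFin v (h t))
    (hh : ∀ (w : InfinitePlace K) (i j : Fin 2), ContDiff ℝ ∞ (fun t => infComp w (h t) i j))
    (S : Set (G K)) (hS : MeasurableSet S) (hSV : S ⊆ chartNb872 𝔫 y₀) (hSfin : μ S < ⊤) :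
    ContDiff ℝ ∞ (fun t : Fin n → ℝ => ∫ y in S, φ₁ y * φ₂ (y⁻¹ * (g * h t)) ∂μ) := by
  haveI := borelSpaceG872 K
  obtain ⟨C, hC⟩ := h₁b
  set g' := y₀⁻¹ * g with hg'
  let Φ : (ℂ × MatCoord437 K) × (Fin n → ℝ) → ℂ :=
    fun p => p.1.1 * φ₂ (g' * fam872 g' h (join872 p.1.2 p.2))
  have hΦ : ContDiff ℝ ∞ Φ := by
    have h1 : ContDiff ℝ ∞ (fun p : (ℂ × MatCoord437 K) × (Fin n → ℝ) => p.1.1) :=
      contDiff_fst.comp contDiff_fst
    have h2 : ContDiff ℝ ∞ (fun p : (ℂ × MatCoord437 K) × (Fin n → ℝ) =>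
        φ₂ (g' * fam872 g' h (join872 p.1.2 p.2))) :=
      (contDiff_chartFn872 h₂s g' hfin hh).comp
        (contDiff_join872.comp ((contDiff_snd.comp contDiff_fst).prodMk contDiff_snd))
    exact h1.mul h2
  let σ : G K → ℂ × MatCoord437 K := fun y => (φ₁ y, coordX872 (y⁻¹ * y₀))
  have hσ : Measurable σ := h₁c.measurable.prodMk (measurable_coordX872 y₀)
  haveI : IsFiniteMeasure (μ.restrict S) :=
    ⟨by rw [Measure.restrict_apply_univ]; exact hSfin⟩
  have hR : ∀ᵐ y ∂(μ.restrict S), ‖σ y‖ ≤ max C 1 := by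
    refine ae_restrict_of_forall_mem hS fun y hy => ?_
    have hy' := (chartNb_sub872 (hSV hy)).1
    rw [Prod.norm_def]
    refine max_le_max (hC y) ?_
    rw [pi_norm_le_iff_of_nonneg zero_le_one]
    intro w
    rw [pi_norm_le_iff_of_nonneg zero_le_one]
    intro i
    rw [pi_norm_le_iff_of_nonneg zero_le_one]
    intro j
    rw [pi_norm_le_iff_of_nonneg zero_le_one]
    intro b
    rw [Real.norm_eq_abs]
    exact abs_coordX_le872 hy' w i j b
  have key := contDiff_paramIntegral872 (μ.restrict S) Φ hΦ σ hσ (max C 1) hR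
  have e : (fun t : Fin n → ℝ => ∫ y in S, φ₁ y * φ₂ (y⁻¹ * (g * h t)) ∂μ)
      = fun t => ∫ y, Φ (σ y, t) ∂(μ.restrict S) := by
    funext t
    refine setIntegral_congr_fun hS fun y hy => ?_
    have hy' := chartNb_sub872 (hSV hy)
    simp only [Φ, σ]
    rw [chart_identity872 h₂L y₀ g y h t hy'.1 hy'.2]
  rw [e]
  exact key

end Local

/-! ## 6. The convolution is smooth at infinity -/

theorem isSmoothAtInf_conv872 {μ : Measure (G K)} [IsFiniteMeasureOnCompacts μ]
    {𝔫 : Ideal (𝓞 K)} (h𝔫 : 𝔫 ≠ ⊥) {φ₁ φ₂ : G K → ℂ} (h₁c : Continuous φ₁)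
    (h₁s : HasCompactSupport φ₁) (h₂c : Continuous φ₂) (h₂s : IsSmoothAtInf φ₂)
    (h₂L : ∀ u : G K, InLevelGroup 𝔫 u → ∀ g : G K, φ₂ (u * g) = φ₂ g) :
    IsSmoothAtInf (conv μ φ₁ φ₂) := by
  intro n h hfin hh g
  haveI := borelSpaceG872 K
  set C := tsupport φ₁ with hCdef
  have hCc : IsCompact C := h₁s
  have hCm : MeasurableSet C := (isClosed_tsupport φ₁).measurableSet
  have hCfin : μ C < ⊤ := hCc.measure_lt_top
  obtain ⟨B, hB⟩ : ∃ B : ℝ, ∀ y, ‖φ₁ y‖ ≤ B := h₁s.exists_bound_of_continuous h₁c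
  have hint : ∀ t : Fin n → ℝ, Integrable (fun y => φ₁ y * φ₂ (y⁻¹ * (g * h t))) μ := by
    intro t
    apply Continuous.integrable_of_hasCompactSupport
    · exact h₁c.mul (h₂c.comp (continuous_inv.mul continuous_const))
    · exact h₁s.mul_right
  let p : Set (G K) → Prop := fun s => ∃ W : Set (G K), IsOpen W ∧ s ⊆ W ∧
    ∀ S : Set (G K), MeasurableSet S → S ⊆ W ∩ C →
      ContDiff ℝ ∞ (fun t : Fin n → ℝ => ∫ y in S, φ₁ y * φ₂ (y⁻¹ * (g * h t)) ∂μ)
  have hp : p C := by
    refine hCc.induction_on (p := p) ?_ ?_ ?_ ?_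
    · refine ⟨∅, isOpen_empty, subset_rfl, fun S _ hS => ?_⟩
      have hS0 : S = ∅ := by
        apply Set.eq_empty_of_forall_notMem
        intro y hy
        exact (hS hy).1
      subst hS0
      simp only [Measure.restrict_empty, integral_zero_measure]
      exact contDiff_const
    · rintro s t hst ⟨W, hW, htW, hWp⟩
      exact ⟨W, hW, hst.trans htW, hWp⟩
    · rintro s t ⟨Ws, hWs, hsWs, hps⟩ ⟨Wt, hWt, htWt, hpt⟩
      refine ⟨Ws ∪ Wt, hWs.union hWt, union_subset_union hsWs htWt, fun S hS hSW => ?_⟩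
      have h1 := hps (S ∩ Ws) (hS.inter hWs.measurableSet) (fun y hy => ⟨hy.2, (hSW hy.1).2⟩)
      have h2 := hpt (S \ Ws) (hS.diff hWs.measurableSet)
        (fun y hy => ⟨((hSW hy.1).1).resolve_left hy.2, (hSW hy.1).2⟩)
      have e : (fun t : Fin n → ℝ => ∫ y in S, φ₁ y * φ₂ (y⁻¹ * (g * h t)) ∂μ)
          = fun t => (∫ y in S ∩ Ws, φ₁ y * φ₂ (y⁻¹ * (g * h t)) ∂μ)
              + ∫ y in S \ Ws, φ₁ y * φ₂ (y⁻¹ * (g * h t)) ∂μ := by
        funext t
        rw [← setIntegral_union (Set.disjoint_sdiff_inter.symm) (hS.diff hWs.measurableSet)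
          (hint t).integrableOn (hint t).integrableOn, Set.inter_union_sdiff]
      rw [e]
      exact h1.add h2
    · intro x _
      refine ⟨chartNb872 𝔫 x,
        mem_nhdsWithin_of_mem_nhds ((isOpen_chartNb872 𝔫 x).mem_nhds (mem_chartNb872 h𝔫 x)),
        chartNb872 𝔫 x, isOpen_chartNb872 𝔫 x, subset_rfl, fun S hS hSW => ?_⟩
      exact contDiff_local872 h₁c ⟨B, hB⟩ h₂s h₂L x g h hfin hh S hS
        (fun y hy => (hSW hy).1)
        (lt_of_le_of_lt (measure_mono (fun y hy => (hSW hy).2)) hCfin)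
  obtain ⟨W, -, hCW, hWp⟩ := hp
  have hfinal := hWp C hCm (fun y hy => ⟨hCW hy, hy⟩)
  have e : (fun t : Fin n → ℝ => conv μ φ₁ φ₂ (g * h t))
      = fun t => ∫ y in C, φ₁ y * φ₂ (y⁻¹ * (g * h t)) ∂μ := by
    funext t
    unfold conv
    symm
    apply setIntegral_eq_integral_of_forall_compl_eq_zero
    intro y hy
    rw [image_eq_zero_of_notMem_tsupport hy, zero_mul]
  rw [e]
  exact hfinal

/-! ## 7. The convolution of two test functions is a test function -/

theorem continuous_conv872 {μ : Measure (G K)} [IsFiniteMeasureOnCompacts μ]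
    {φ₁ φ₂ : G K → ℂ} (h₁c : Continuous φ₁) (h₁s : HasCompactSupport φ₁)
    (h₂c : Continuous φ₂) : Continuous (conv μ φ₁ φ₂) := by
  haveI := borelSpaceG872 K
  rw [← continuousOn_univ]
  unfold conv
  apply continuousOn_integral_of_compact_support (k := tsupport φ₁) h₁s.isCompact
  · apply Continuous.continuousOn
    have c1 : Continuous fun p : G K × G K => φ₁ p.2 := h₁c.comp continuous_snd
    have c2 : Continuous fun p : G K × G K => φ₂ (p.2⁻¹ * p.1) :=
      h₂c.comp ((continuous_inv.comp continuous_snd).mul continuous_fst)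
    exact c1.mul c2
  · intro p y _ hy
    rw [image_eq_zero_of_notMem_tsupport hy]
    simp

theorem hasCompactSupport_conv872 (μ : Measure (G K)) {φ₁ φ₂ : G K → ℂ}
    (h₁s : HasCompactSupport φ₁) (h₂s : HasCompactSupport φ₂) :
    HasCompactSupport (conv μ φ₁ φ₂) := by
  refine HasCompactSupport.intro (h₁s.isCompact.mul h₂s.isCompact) fun g hg => ?_
  by_contra hne
  exact hg (Fermat.Agent.LT.T5.H599.conv_ne_zero599 μ φ₁ φ₂ g hne)

/-- Left translation of the first factor. -/
theorem conv_left872 {μ : Measure (G K)} [μ.IsMulLeftInvariant] (φ₁ φ₂ : G K → ℂ)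
    (u g : G K) : conv μ φ₁ φ₂ (u * g) = ∫ y, φ₁ (u * y) * φ₂ (y⁻¹ * g) ∂μ := by
  haveI := borelSpaceG872 K
  unfold conv
  rw [← integral_mul_left_eq_self (fun y => φ₁ y * φ₂ (y⁻¹ * (u * g))) u]
  refine integral_congr_ae (Filter.Eventually.of_forall fun y => ?_)
  simp only [mul_inv_rev, mul_assoc, inv_mul_cancel_left]

/-- **The convolution of two test functions of level `𝔫 ≠ 0` and type `τ` is a test function
of level `𝔫` and type `τ`.** -/
theorem isTestFn_conv872 {μ : Measure (G K)} (hμ : μ.IsHaarMeasure) {𝔫 : Ideal (𝓞 K)}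
    (h𝔫 : 𝔫 ≠ ⊥) {τ : G K → ℂ} {φ₁ φ₂ : G K → ℂ} (h₁ : IsTestFn 𝔫 τ φ₁)
    (h₂ : IsTestFn 𝔫 τ φ₂) : IsTestFn 𝔫 τ (conv μ φ₁ φ₂) where
  ktype := h₁.ktype
  cont := continuous_conv872 h₁.cont h₁.supp h₂.cont
  supp := hasCompactSupport_conv872 μ h₁.supp h₂.supp
  smooth := isSmoothAtInf_conv872 h𝔫 h₁.cont h₁.supp h₂.cont h₂.smooth h₂.inv.level_left
  inv :=
    { level_right := fun u hu g => by
        unfold conv
        refine integral_congr_ae (Filter.Eventually.of_forall fun y => ?_)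
        simp only [← mul_assoc, h₂.inv.level_right u hu]
      level_left := fun u hu g => by
        rw [conv_left872]
        unfold conv
        refine integral_congr_ae (Filter.Eventually.of_forall fun y => ?_)
        simp only [h₁.inv.level_left u hu]
      arch_right := fun w k hk g => by
        unfold conv
        rw [← integral_const_mul]
        refine integral_congr_ae (Filter.Eventually.of_forall fun y => ?_)
        simp only [← mul_assoc, h₂.inv.arch_right w k hk]
        ring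
      arch_left := fun w k hk g => by
        rw [conv_left872]
        unfold conv
        rw [← integral_const_mul]
        refine integral_congr_ae (Filter.Eventually.of_forall fun y => ?_)
        simp only [h₁.inv.arch_left w k hk]
        ring }

/-- The same from a frame. -/
theorem isTestFn_conv_of_frame872 {μ : Measure (G K)} {F : Set (G K)} (hF : IsFrame μ F)
    {𝔫 : Ideal (𝓞 K)} (h𝔫 : 𝔫 ≠ ⊥) {τ : G K → ℂ} {φ₁ φ₂ : G K → ℂ}
    (h₁ : IsTestFn 𝔫 τ φ₁) (h₂ : IsTestFn 𝔫 τ φ₂) : IsTestFn 𝔫 τ (conv μ φ₁ φ₂) :=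
  isTestFn_conv872 hF.haar h𝔫 h₁ h₂


end Fermat.Agent.LT.T7.H872

end
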